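/-
Lib / LaurentSubst (helper227): the power series identity behind the invariance of the residue
in arbitrary characteristic:  if `v * w = 1` in `R⟦X⟧` and `m ≥ 1` then the coefficient of `X ^ m`
in `w ^ (m + 1) * (v + X * v')` vanishes  (i.e. `res (ρ ^ (-(m+1)) dρ) = 0` for `ρ = X * v`).
Proof: `m` times the coefficient vanishes in every commutative ring; the factor `m` is removed by
lifting to the universal case `MvPolynomial ℕ ℤ`.  Mathlib only.
-/
import Mathlib

set_option autoImplicit false

namespace Fermat.Agent.Lib.LaurentSubst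

open PowerSeries

theorem map_derivative {R S : Type*} [CommRing R] [CommRing S] (φ : R →+* S) (f : R⟦X⟧) :
    PowerSeries.map φ (derivative R f) = derivative S (PowerSeries.map φ f) := by
  ext n
  simp [PowerSeries.coeff_derivative]

variable {R : Type*} [CommRing R]

theorem derivative_of_mul_eq_one {v w : R⟦X⟧} (h : v * w = 1) :
    derivative R w = - (w ^ 2 * derivative R v) := by
  have h1 : derivative R (v * w) = 0 := by rw [h, derivative_one]
  rw [Derivation.leibniz, smul_eq_mul, smul_eq_mul] at h1
  have h2 : w * (v * derivative R w + w * derivative R v) = 0 := by rw [h1, mul_zero]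
  have h3 : w * (v * derivative R w + w * derivative R v) =
      (v * w) * derivative R w + w ^ 2 * derivative R v := by ring
  rw [h3, h, one_mul] at h2
  exact eq_neg_of_add_eq_zero_left h2

theorem natCast_mul_core {v w : R⟦X⟧} (h : v * w = 1) (m : ℕ) :
    (m : R⟦X⟧) * (w ^ (m + 1) * (v + X * derivative R v)) =
      (m : R⟦X⟧) * w ^ m - X * derivative R (w ^ m) := by
  rcases Nat.eq_zero_or_pos m with rfl | hm
  · simp
  · obtain ⟨k, rfl⟩ : ∃ k, m = k + 1 := ⟨m - 1, by omega⟩
    rw [derivative_pow, derivative_of_mul_eq_one h, Nat.add_sub_cancel]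
    have : w ^ (k + 1) = w ^ (k + 1) * (v * w) := by rw [h, mul_one]
    rw [this]
    ring

theorem natCast_mul_coeff_core {v w : R⟦X⟧} (h : v * w = 1) (m : ℕ) :
    (m : R) * coeff m (w ^ (m + 1) * (v + X * derivative R v)) = 0 := by
  have h1 := congrArg (coeff m) (natCast_mul_core h m)
  have h2 : ∀ f : R⟦X⟧, coeff m ((m : R⟦X⟧) * f) = (m : R) * coeff m f := by
    intro f
    have : (m : R⟦X⟧) = C (m : R) := by simp
    rw [this, coeff_C_mul]
  rw [h2, map_sub, h2] at h1
  rw [h1]
  rcases Nat.eq_zero_or_pos m with rfl | hm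
  · simp
  · obtain ⟨k, rfl⟩ : ∃ k, m = k + 1 := ⟨m - 1, by omega⟩
    rw [coeff_succ_X_mul, coeff_derivative]
    push_cast
    ring

/-- The universal unit power series with constant coefficient one. -/
noncomputable def univV : (MvPolynomial ℕ ℤ)⟦X⟧ :=
  PowerSeries.mk fun i => if i = 0 then 1 else MvPolynomial.X i

theorem constantCoeff_univV : constantCoeff univV = 1 := by
  rw [← coeff_zero_eq_constantCoeff_apply, univV, coeff_mk, if_pos rfl]

theorem coeff_core_of_constantCoeff_eq_one {v w : R⟦X⟧} (h : v * w = 1)
    (hv : constantCoeff v = 1) {m : ℕ} (hm : 1 ≤ m) :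
    coeff m (w ^ (m + 1) * (v + X * derivative R v)) = 0 := by
  classical
  set φ : MvPolynomial ℕ ℤ →+* R :=
    MvPolynomial.eval₂Hom (Int.castRingHom R) (fun i => coeff i v) with hφ
  set w0 : (MvPolynomial ℕ ℤ)⟦X⟧ := invOfUnit univV 1 with hw0
  have h0 : univV * w0 = 1 := mul_invOfUnit univV 1 (by rw [constantCoeff_univV, Units.val_one])
  have hmv : PowerSeries.map φ univV = v := by
    ext i
    rw [coeff_map, univV, coeff_mk]
    split_ifs with hi
    · subst hi
      rw [map_one, coeff_zero_eq_constantCoeff_apply, hv]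
    · rw [hφ, MvPolynomial.coe_eval₂Hom, MvPolynomial.eval₂_X]
  have hmw : PowerSeries.map φ w0 = w := by
    have h1 : v * PowerSeries.map φ w0 = 1 := by
      rw [← hmv, ← map_mul, h0, map_one]
    calc PowerSeries.map φ w0 = (v * w) * PowerSeries.map φ w0 := by rw [h, one_mul]
      _ = w * (v * PowerSeries.map φ w0) := by ring
      _ = w := by rw [h1, mul_one]
  have hz : coeff m (w0 ^ (m + 1) * (univV + X * derivative _ univV)) = 0 := by
    have h1 := natCast_mul_coeff_core h0 m
    rcases mul_eq_zero.mp h1 with h2 | h2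
    · exfalso
      have : (m : MvPolynomial ℕ ℤ) ≠ 0 := by
        exact_mod_cast (by omega : m ≠ 0)
      exact this h2
    · exact h2
  have := congrArg φ hz
  have hmap : PowerSeries.map φ (w0 ^ (m + 1) * (univV + X * derivative _ univV)) =
      w ^ (m + 1) * (v + X * derivative R v) := by
    rw [map_mul, map_pow, map_add, map_mul, map_derivative, hmv, hmw, map_X]
  rw [map_zero, ← coeff_map, hmap] at this
  exact this

/-- **Core identity** (any commutative ring, any unit power series). -/
theorem coeff_core {v w : R⟦X⟧} (h : v * w = 1) {m : ℕ} (hm : 1 ≤ m) :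
    coeff m (w ^ (m + 1) * (v + X * derivative R v)) = 0 := by
  set c := constantCoeff v with hc
  set d := constantCoeff w with hd
  have hcd : c * d = 1 := by
    rw [hc, hd, ← map_mul, h, map_one]
  have hCC : (C c : R⟦X⟧) * C d = 1 := by rw [← map_mul, hcd, map_one]
  have h1 : (C d * v) * (C c * w) = 1 := by
    calc (C d * v) * (C c * w) = (C c * C d) * (v * w) := by ring
      _ = 1 := by rw [hCC, h, one_mul]
  have h2 : constantCoeff (C d * v) = 1 := by
    rw [map_mul, constantCoeff_C, ← hc, mul_comm, hcd]
  have h3 := coeff_core_of_constantCoeff_eq_one h1 h2 hm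
  have h4 : derivative R (C d * v) = C d * derivative R v := by
    rw [Derivation.leibniz, derivative_C, smul_zero, add_zero, smul_eq_mul]
  have h5 : w ^ (m + 1) * (v + X * derivative R v) =
      C (d ^ m) * ((C c * w) ^ (m + 1) * (C d * v + X * derivative R (C d * v))) := by
    rw [h4, map_pow]
    calc w ^ (m + 1) * (v + X * derivative R v)
        = (C c * C d) ^ (m + 1) * (w ^ (m + 1) * (v + X * derivative R v)) := by
          rw [hCC, one_pow, one_mul]
      _ = _ := by ring
  rw [h5, coeff_C_mul, h3, mul_zero]

end Fermat.Agent.Lib.LaurentSubst
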