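/-
Lib / LaurentSubst (helper227): the Euler derivation `theta = t d/dt` and the derivative
`dL = d/dt` on Laurent series over a commutative ring, as derivations.  Mathlib only.
-/
import Mathlib

set_option autoImplicit false

namespace Fermat.Agent.Lib.LaurentSubst

open HahnSeries

variable {R : Type*} [CommRing R]

theorem algebraMap_eq_C (r : R) : algebraMap R (LaurentSeries R) r = HahnSeries.C r := by
  rw [HahnSeries.algebraMap_apply']
  simp

theorem smul_eq_C_mul (r : R) (f : LaurentSeries R) : r • f = HahnSeries.C r * f := by
  rw [HahnSeries.C_mul_eq_smul]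

/-- The underlying function of `theta`: multiply the `n`-th coefficient by `n`. -/
noncomputable def thetaFun (f : LaurentSeries R) : LaurentSeries R :=
  HahnSeries.ofSuppBddBelow (fun n : ℤ => (n : R) * f.coeff n) <| by
    refine ⟨f.order, fun x h => ?_⟩
    by_contra hlt
    exact h (by
      show (x : R) * f.coeff x = 0
      rw [coeff_eq_zero_of_lt_order (not_le.mp hlt), mul_zero])

@[simp]
theorem coeff_thetaFun (f : LaurentSeries R) (n : ℤ) :
    (thetaFun f).coeff n = (n : R) * f.coeff n := rfl

theorem support_thetaFun_subset (f : LaurentSeries R) : (thetaFun f).support ⊆ f.support := by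
  intro n hn
  rw [HahnSeries.mem_support] at hn ⊢
  intro h
  exact hn (by rw [coeff_thetaFun, h, mul_zero])

theorem thetaFun_mul (f g : LaurentSeries R) :
    thetaFun (f * g) = f * thetaFun g + g * thetaFun f := by
  ext n
  rw [coeff_thetaFun, HahnSeries.coeff_add, mul_comm g (thetaFun f),
    HahnSeries.coeff_mul_right' g.isPWO_support (support_thetaFun_subset g),
    HahnSeries.coeff_mul_left' f.isPWO_support (support_thetaFun_subset f),
    HahnSeries.coeff_mul, Finset.mul_sum, ← Finset.sum_add_distrib]
  refine Finset.sum_congr rfl fun ij hij => ?_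
  rw [Finset.mem_antidiagonal] at hij
  rw [coeff_thetaFun, coeff_thetaFun, ← hij.2.2]
  push_cast
  ring

/-- The Euler derivation `t d/dt` on Laurent series. -/
noncomputable def theta : Derivation R (LaurentSeries R) (LaurentSeries R) where
  toFun := thetaFun
  map_add' := fun f g => by
    ext n
    simp [mul_add]
  map_smul' := fun r f => by
    ext n
    rw [Algebra.smul_def, algebraMap_eq_C, HahnSeries.C_mul_eq_smul]
    simp [mul_left_comm]
  map_one_eq_zero' := by
    show thetaFun 1 = 0
    ext n
    rw [coeff_thetaFun, HahnSeries.coeff_one]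
    split_ifs with h
    · simp [h]
    · simp
  leibniz' := fun f g => by
    show thetaFun (f * g) = f • thetaFun g + g • thetaFun f
    rw [thetaFun_mul, smul_eq_mul, smul_eq_mul]

@[simp]
theorem coeff_theta (f : LaurentSeries R) (n : ℤ) :
    (theta f).coeff n = (n : R) * f.coeff n := rfl

/-- The derivative `d/dt` on Laurent series, as a derivation. -/
noncomputable def dL : Derivation R (LaurentSeries R) (LaurentSeries R) where
  toFun := fun f => single (-1 : ℤ) (1 : R) * theta f
  map_add' := fun f g => by
    rw [map_add, mul_add]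
  map_smul' := fun r f => by
    rw [Derivation.map_smul, RingHom.id_apply]
    ext n
    simp [HahnSeries.coeff_single_mul]
  map_one_eq_zero' := by
    show single (-1 : ℤ) (1 : R) * theta 1 = 0
    rw [Derivation.map_one_eq_zero, mul_zero]
  leibniz' := fun f g => by
    show single (-1 : ℤ) (1 : R) * theta (f * g) =
      f • (single (-1 : ℤ) (1 : R) * theta g) + g • (single (-1 : ℤ) (1 : R) * theta f)
    rw [Derivation.leibniz, smul_eq_mul, smul_eq_mul, smul_eq_mul, smul_eq_mul]
    ring

theorem dL_apply (f : LaurentSeries R) : dL f = single (-1 : ℤ) (1 : R) * theta f := rfl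

@[simp]
theorem coeff_dL (f : LaurentSeries R) (n : ℤ) :
    (dL f).coeff n = ((n : R) + 1) * f.coeff (n + 1) := by
  rw [dL_apply, HahnSeries.coeff_single_mul, coeff_theta, one_mul]
  simp

theorem theta_eq (f : LaurentSeries R) : theta f = single (1 : ℤ) (1 : R) * dL f := by
  rw [dL_apply, ← mul_assoc, HahnSeries.single_mul_single]
  simp

theorem dL_eq_derivative (f : LaurentSeries R) : dL f = LaurentSeries.derivative R f := by
  ext n
  rw [coeff_dL, LaurentSeries.derivative_apply, LaurentSeries.hasseDeriv_coeff]
  simp

theorem dL_ofPowerSeries (F : PowerSeries R) :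
    dL (HahnSeries.ofPowerSeries ℤ R F) =
      HahnSeries.ofPowerSeries ℤ R (PowerSeries.derivative R F) := by
  ext n
  rw [coeff_dL]
  rcases lt_or_ge n 0 with hn | hn
  · rw [PowerSeries.coeff_coe, PowerSeries.coeff_coe, if_pos hn]
    rcases eq_or_lt_of_le (Int.add_one_le_of_lt hn) with h | h
    · have : (n : R) + 1 = 0 := by
        have := congrArg (Int.cast : ℤ → R) h
        simpa using this
      rw [this, zero_mul]
    · rw [if_pos h, mul_zero]
  · obtain ⟨m, rfl⟩ := Int.eq_ofNat_of_zero_le hn
    have h1 : ((m : ℤ) + 1) = ((m + 1 : ℕ) : ℤ) := by push_cast; ring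
    rw [h1, LaurentSeries.coeff_coe_powerSeries, LaurentSeries.coeff_coe_powerSeries,
      PowerSeries.coeff_derivative]
    push_cast
    ring

theorem theta_single (n : ℤ) (c : R) : theta (single n c) = single n ((n : R) * c) := by
  ext m
  rw [coeff_theta]
  by_cases h : m = n
  · subst h; simp
  · rw [HahnSeries.coeff_single_of_ne h, HahnSeries.coeff_single_of_ne h, mul_zero]

theorem dL_single (n : ℤ) (c : R) : dL (single n c) = single (n - 1) ((n : R) * c) := by
  rw [dL_apply, theta_single, HahnSeries.single_mul_single, one_mul, add_comm, sub_eq_add_neg]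

/-- The residue of a derivative vanishes. -/
theorem coeff_neg_one_dL (f : LaurentSeries R) : (dL f).coeff (-1) = 0 := by
  rw [coeff_dL]
  simp

/-- The constant term of `theta f` vanishes. -/
theorem coeff_zero_theta (f : LaurentSeries R) : (theta f).coeff 0 = 0 := by
  rw [coeff_theta]
  simp

end Fermat.Agent.Lib.LaurentSubst
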