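/-
Lib / LaurentSubst (helper227): substitution `t ↦ ρ(t)` in Laurent series over a field, for a
nonzero power series `ρ` without constant term; chain rule.  Mathlib only.
-/
import Fermat.Agent.Lib.LaurentSubst.Theta

set_option autoImplicit false

namespace Fermat.Agent.Lib.LaurentSubst

open PowerSeries

variable {k : Type*} [Field k]

/-- Substitution in power series, with values in Laurent series. -/
noncomputable def substP (ρ : k⟦X⟧) (h0 : constantCoeff ρ = 0) : k⟦X⟧ →+* LaurentSeries k :=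
  (HahnSeries.ofPowerSeries ℤ k).comp
    ((PowerSeries.substAlgHom (R := k) (HasSubst.of_constantCoeff_zero' h0) :
      k⟦X⟧ →ₐ[k] k⟦X⟧) : k⟦X⟧ →+* k⟦X⟧)

theorem substP_apply (ρ : k⟦X⟧) (h0 : constantCoeff ρ = 0) (F : k⟦X⟧) :
    substP ρ h0 F = HahnSeries.ofPowerSeries ℤ k (F.subst ρ) := by
  simp only [substP, RingHom.comp_apply, RingHom.coe_coe, coe_substAlgHom]

theorem ofPowerSeries_ne_zero {ρ : k⟦X⟧} (hne : ρ ≠ 0) : HahnSeries.ofPowerSeries ℤ k ρ ≠ 0 := by
  intro h
  exact hne (HahnSeries.ofPowerSeries_injective (by rw [h, map_zero]))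

theorem isUnit_substP_X (ρ : k⟦X⟧) (h0 : constantCoeff ρ = 0) (hne : ρ ≠ 0) :
    IsUnit (substP ρ h0 X) := by
  rw [substP_apply, subst_X (HasSubst.of_constantCoeff_zero' h0)]
  exact (ofPowerSeries_ne_zero hne).isUnit

/-- Substitution `t ↦ ρ(t)` in Laurent series. -/
noncomputable def substL (ρ : k⟦X⟧) (h0 : constantCoeff ρ = 0) (hne : ρ ≠ 0) :
    LaurentSeries k →+* LaurentSeries k :=
  IsLocalization.Away.lift (X : k⟦X⟧) (isUnit_substP_X ρ h0 hne)

variable (ρ : k⟦X⟧) (h0 : constantCoeff ρ = 0) (hne : ρ ≠ 0)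

theorem substL_ofPowerSeries (F : k⟦X⟧) :
    substL ρ h0 hne (HahnSeries.ofPowerSeries ℤ k F) =
      HahnSeries.ofPowerSeries ℤ k (F.subst ρ) := by
  rw [← substP_apply ρ h0]
  exact IsLocalization.Away.lift_eq (X : k⟦X⟧) (isUnit_substP_X ρ h0 hne) F

theorem substL_single_one :
    substL ρ h0 hne (HahnSeries.single 1 1) = HahnSeries.ofPowerSeries ℤ k ρ := by
  rw [← PowerSeries.coe_X, substL_ofPowerSeries, subst_X (HasSubst.of_constantCoeff_zero' h0)]

theorem substL_C (c : k) : substL ρ h0 hne (HahnSeries.C c) = HahnSeries.C c := by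
  rw [← PowerSeries.coe_C, substL_ofPowerSeries, subst_C]
  rfl

theorem substL_injective : Function.Injective (substL ρ h0 hne) :=
  (substL ρ h0 hne).injective

theorem single_eq_C_mul_zpow (n : ℤ) (c : k) :
    (HahnSeries.single n c : LaurentSeries k) =
      HahnSeries.C c * (HahnSeries.single 1 1 : LaurentSeries k) ^ n := by
  rw [← RatFunc.single_zpow, HahnSeries.C_apply, HahnSeries.single_mul_single, zero_add,
    mul_one]

theorem substL_single (n : ℤ) (c : k) :
    substL ρ h0 hne (HahnSeries.single n c) =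
      HahnSeries.C c * (HahnSeries.ofPowerSeries ℤ k ρ) ^ n := by
  rw [single_eq_C_mul_zpow, map_mul, map_zpow₀, substL_C, substL_single_one]

theorem substL_smul (c : k) (G : LaurentSeries k) :
    substL ρ h0 hne (c • G) = c • substL ρ h0 hne G := by
  rw [smul_eq_C_mul, smul_eq_C_mul, map_mul, substL_C]

/-- every Laurent series is a power series divided by a power of `t` -/
theorem exists_mul_pow_eq (G : LaurentSeries k) :
    ∃ (N : ℕ) (F : k⟦X⟧), G * (HahnSeries.ofPowerSeries ℤ k X) ^ N =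
      HahnSeries.ofPowerSeries ℤ k F := by
  obtain ⟨⟨F, ⟨_, N, rfl⟩⟩, h⟩ :=
    IsLocalization.surj (Submonoid.powers (X : k⟦X⟧)) G
  exact ⟨N, F, by simpa using h⟩

/-- **Chain rule.** -/
theorem dL_substL (G : LaurentSeries k) :
    dL (substL ρ h0 hne G) =
      substL ρ h0 hne (dL G) * HahnSeries.ofPowerSeries ℤ k (derivative k ρ) := by
  have hs := HasSubst.of_constantCoeff_zero' h0
  -- the case of power series
  have hP : ∀ F : k⟦X⟧, dL (substL ρ h0 hne (HahnSeries.ofPowerSeries ℤ k F)) =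
      substL ρ h0 hne (dL (HahnSeries.ofPowerSeries ℤ k F)) *
        HahnSeries.ofPowerSeries ℤ k (derivative k ρ) := by
    intro F
    rw [substL_ofPowerSeries, dL_ofPowerSeries, dL_ofPowerSeries, substL_ofPowerSeries,
      derivative_subst hs, map_mul]
  obtain ⟨N, F, hF⟩ := exists_mul_pow_eq G
  set T : LaurentSeries k := (HahnSeries.ofPowerSeries ℤ k X) ^ N with hT
  have hT' : T = HahnSeries.ofPowerSeries ℤ k (X ^ N) := by rw [hT, map_pow]
  have hTne : substL ρ h0 hne T ≠ 0 := by
    rw [hT, map_pow, substL_ofPowerSeries, subst_X hs]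
    exact pow_ne_zero _ (ofPowerSeries_ne_zero hne)
  have h1 := hP F
  rw [← hF, map_mul, Derivation.leibniz, Derivation.leibniz, smul_eq_mul, smul_eq_mul,
    smul_eq_mul, smul_eq_mul, map_add, map_mul, map_mul] at h1
  have h2 : dL (substL ρ h0 hne T) = substL ρ h0 hne (dL T) *
      HahnSeries.ofPowerSeries ℤ k (derivative k ρ) := by
    rw [hT']; exact hP _
  rw [h2] at h1
  have h3 : substL ρ h0 hne T * dL (substL ρ h0 hne G) =
      substL ρ h0 hne T * (substL ρ h0 hne (dL G) *
        HahnSeries.ofPowerSeries ℤ k (derivative k ρ)) := by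
    linear_combination h1
  exact mul_left_cancel₀ hTne h3

/-- chain rule for `theta = t d/dt`. -/
theorem theta_substL (G : LaurentSeries k) :
    theta (substL ρ h0 hne G) * HahnSeries.ofPowerSeries ℤ k ρ =
      substL ρ h0 hne (theta G) * theta (HahnSeries.ofPowerSeries ℤ k ρ) := by
  rw [theta_eq, theta_eq G, theta_eq (HahnSeries.ofPowerSeries ℤ k ρ), dL_substL, map_mul,
    substL_single_one, dL_ofPowerSeries]
  ring

end Fermat.Agent.Lib.LaurentSubst
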