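/-
Lib / LaurentSubst (helper227): invariance of the residue under a change of uniformiser
`t ↦ ρ(t)`, `ρ` of order one, over a field of ARBITRARY characteristic.  Mathlib only.
-/
import Fermat.Agent.Lib.LaurentSubst.Subst
import Fermat.Agent.Lib.LaurentSubst.ResCore

set_option autoImplicit false

namespace Fermat.Agent.Lib.LaurentSubst

open PowerSeries

variable {k : Type*} [Field k]

local notation "ι" => HahnSeries.ofPowerSeries ℤ k

theorem coeff_neg_one_ofPowerSeries (F : k⟦X⟧) : (ι F).coeff (-1) = 0 := by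
  rw [PowerSeries.coeff_coe, if_pos (by norm_num)]

theorem exists_ofPowerSeries_eq (G : LaurentSeries k) (hG : ∀ m : ℤ, m < 0 → G.coeff m = 0) :
    ∃ F : k⟦X⟧, G = ι F := by
  refine ⟨PowerSeries.mk fun n => G.coeff n, ?_⟩
  ext m
  rw [PowerSeries.coeff_coe]
  split_ifs with h
  · exact hG m h
  · rw [coeff_mk, Int.natAbs_of_nonneg (not_lt.mp h)]

/-- the unit part of a power series of order one -/
noncomputable def unitPart (ρ : k⟦X⟧) : k⟦X⟧ := PowerSeries.mk fun n => coeff (n + 1) ρ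

theorem eq_X_mul_unitPart {ρ : k⟦X⟧} (h0 : constantCoeff ρ = 0) : ρ = X * unitPart ρ := by
  conv_lhs => rw [eq_X_mul_shift_add_const ρ, h0, map_zero, add_zero]
  rfl

theorem constantCoeff_unitPart (ρ : k⟦X⟧) : constantCoeff (unitPart ρ) = coeff 1 ρ := by
  rw [← coeff_zero_eq_constantCoeff_apply, unitPart, coeff_mk]

theorem derivative_eq_unitPart {ρ : k⟦X⟧} (h0 : constantCoeff ρ = 0) :
    derivative k ρ = unitPart ρ + X * derivative k (unitPart ρ) := by
  conv_lhs => rw [eq_X_mul_unitPart h0]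
  rw [Derivation.leibniz, derivative_X, smul_eq_mul, smul_eq_mul, mul_one, add_comm]

variable (ρ : k⟦X⟧) (h0 : constantCoeff ρ = 0) (hne : ρ ≠ 0)

include h0 in
theorem ofPowerSeries_zpow_neg (h1 : coeff 1 ρ ≠ 0) (m : ℕ) :
    (ι ρ) ^ (-(m : ℤ)) = HahnSeries.single (-(m : ℤ)) 1 * ι ((unitPart ρ)⁻¹ ^ m) := by
  have hv : unitPart ρ * (unitPart ρ)⁻¹ = 1 :=
    PowerSeries.mul_inv_cancel _ (by rw [constantCoeff_unitPart]; exact h1)
  rw [zpow_neg, zpow_natCast]
  apply inv_eq_of_mul_eq_one_left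
  have h2 : (HahnSeries.single (-(m : ℤ)) (1 : k) : LaurentSeries k) * (ι X) ^ m = 1 := by
    rw [PowerSeries.coe_X, HahnSeries.single_pow, HahnSeries.single_mul_single]
    simp
  calc HahnSeries.single (-(m : ℤ)) 1 * ι ((unitPart ρ)⁻¹ ^ m) * (ι ρ) ^ m
      = (HahnSeries.single (-(m : ℤ)) 1 * (ι X) ^ m) * ι ((unitPart ρ * (unitPart ρ)⁻¹) ^ m) := by
        have e : ι ρ = ι X * ι (unitPart ρ) := by
          rw [← map_mul, ← eq_X_mul_unitPart h0]
        rw [e, mul_pow, mul_pow, map_mul, map_pow, map_pow]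
        ring
    _ = 1 := by rw [h2, hv, one_pow, map_one, one_mul]

/-- residue of `ρ ^ n dρ`. -/
theorem coeff_neg_one_substL_single (h1 : coeff 1 ρ ≠ 0) (n : ℤ) (c : k) :
    (substL ρ h0 hne (HahnSeries.single n c) * ι (derivative k ρ)).coeff (-1) =
      (HahnSeries.single n c : LaurentSeries k).coeff (-1) := by
  have hv : unitPart ρ * (unitPart ρ)⁻¹ = 1 :=
    PowerSeries.mul_inv_cancel _ (by rw [constantCoeff_unitPart]; exact h1)
  rcases le_or_gt 0 n with hn | hn
  · obtain ⟨m, rfl⟩ := Int.eq_ofNat_of_zero_le hn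
    rw [substL_single, zpow_natCast, ← PowerSeries.coe_C, ← map_pow, ← map_mul, ← map_mul,
      coeff_neg_one_ofPowerSeries, HahnSeries.coeff_single_of_ne (by omega)]
  · obtain ⟨m, rfl⟩ : ∃ m : ℕ, n = -((m + 1 : ℕ) : ℤ) := ⟨(-n - 1).toNat, by omega⟩
    rw [substL_single, ofPowerSeries_zpow_neg ρ h0 h1, ← PowerSeries.coe_C]
    have e1 : ι (C c) * (HahnSeries.single (-((m + 1 : ℕ) : ℤ)) 1 * ι ((unitPart ρ)⁻¹ ^ (m + 1))) *
        ι (derivative k ρ) = HahnSeries.single (-((m + 1 : ℕ) : ℤ)) 1 *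
          ι (C c * ((unitPart ρ)⁻¹ ^ (m + 1) * derivative k ρ)) := by
      rw [map_mul, map_mul]
      ring
    rw [e1, HahnSeries.coeff_single_mul, one_mul]
    have e2 : (-1 : ℤ) - -((m + 1 : ℕ) : ℤ) = (m : ℤ) := by push_cast; ring
    rw [e2, LaurentSeries.coeff_coe_powerSeries, coeff_C_mul, derivative_eq_unitPart h0]
    rcases Nat.eq_zero_or_pos m with rfl | hm
    · have e3 : (unitPart ρ)⁻¹ ^ (0 + 1) * (unitPart ρ + X * derivative k (unitPart ρ)) =
          1 + X * ((unitPart ρ)⁻¹ * derivative k (unitPart ρ)) := by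
        rw [← hv]; ring
      rw [e3, map_add, coeff_zero_X_mul, add_zero, coeff_zero_one, mul_one]
      simp
    · rw [coeff_core hv hm, mul_zero, HahnSeries.coeff_single_of_ne]
      push_cast
      omega

/-- **Invariance of the residue** under `t ↦ ρ(t)`, `ρ` of order one, in any characteristic. -/
theorem coeff_neg_one_substL_mul (h1 : coeff 1 ρ ≠ 0) (G : LaurentSeries k) :
    (substL ρ h0 hne G * ι (derivative k ρ)).coeff (-1) = G.coeff (-1) := by
  have key : ∀ (N : ℕ) (G : LaurentSeries k), (∀ m : ℤ, m < -(N : ℤ) → G.coeff m = 0) →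
      (substL ρ h0 hne G * ι (derivative k ρ)).coeff (-1) = G.coeff (-1) := by
    intro N
    induction N with
    | zero =>
      intro G hG
      obtain ⟨F, rfl⟩ := exists_ofPowerSeries_eq G (by simpa using hG)
      rw [substL_ofPowerSeries, ← map_mul, coeff_neg_one_ofPowerSeries,
        coeff_neg_one_ofPowerSeries]
    | succ N ih =>
      intro G hG
      set S : LaurentSeries k :=
        HahnSeries.single (-((N + 1 : ℕ) : ℤ)) (G.coeff (-((N + 1 : ℕ) : ℤ))) with hS
      have h2 := ih (G - S) (by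
        intro m hm
        rw [HahnSeries.coeff_sub]
        rcases eq_or_ne m (-((N + 1 : ℕ) : ℤ)) with rfl | hne'
        · rw [hS, HahnSeries.coeff_single_same, sub_self]
        · rw [hS, HahnSeries.coeff_single_of_ne hne', sub_zero]
          apply hG
          push_cast at hne' ⊢
          omega)
      have h3 := coeff_neg_one_substL_single ρ h0 hne h1 (-((N + 1 : ℕ) : ℤ))
        (G.coeff (-((N + 1 : ℕ) : ℤ)))
      rw [← hS] at h3
      have h4 : G = (G - S) + S := by ring
      rw [h4, map_add, add_mul, HahnSeries.coeff_add, HahnSeries.coeff_add, h2, h3]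
  refine key (-G.order).toNat G fun m hm => HahnSeries.coeff_eq_zero_of_lt_order ?_
  have := Int.self_le_toNat (-G.order)
  omega

/-- Invariance of the constant term against `dlog`:
`a₀ (G(ρ) · θρ/ρ) = a₀ (G)`. -/
theorem coeff_zero_substL_mul (h1 : coeff 1 ρ ≠ 0) (G : LaurentSeries k) :
    (substL ρ h0 hne G * (theta (ι ρ) / ι ρ)).coeff 0 = G.coeff 0 := by
  have hρ : ι ρ ≠ 0 := ofPowerSeries_ne_zero hne
  have h2 := coeff_neg_one_substL_mul ρ h0 hne h1 (G * HahnSeries.single (-1) 1)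
  rw [HahnSeries.coeff_mul_single, map_mul, substL_single, map_one, one_mul, mul_one] at h2
  rw [show (-1 : ℤ) - -1 = 0 by norm_num] at h2
  rw [← h2, theta_eq, dL_ofPowerSeries]
  have e : substL ρ h0 hne G * (HahnSeries.single 1 1 * ι (derivative k ρ) / ι ρ) =
      HahnSeries.single 1 1 * (substL ρ h0 hne G * (ι ρ) ^ (-1 : ℤ) * ι (derivative k ρ)) := by
    rw [zpow_neg_one]
    field_simp
  rw [e, HahnSeries.coeff_single_mul, one_mul]
  norm_num

/-- `dlog` and substitution. -/
theorem dlog_substL (u : LaurentSeries k) :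
    theta (substL ρ h0 hne u) / substL ρ h0 hne u =
      substL ρ h0 hne (theta u / u) * (theta (ι ρ) / ι ρ) := by
  have hρ : ι ρ ≠ 0 := ofPowerSeries_ne_zero hne
  have h := theta_substL ρ h0 hne u
  rw [map_div₀, div_mul_div_comm, ← h]
  rcases eq_or_ne u 0 with rfl | hu
  · simp
  · have : substL ρ h0 hne u ≠ 0 := (map_ne_zero _).mpr hu
    field_simp

/-- **Invariance of `a₀ (x · θu/u)`** under a change of uniformiser. -/
theorem coeff_zero_mul_dlog_substL (h1 : coeff 1 ρ ≠ 0) (x u : LaurentSeries k) :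
    (substL ρ h0 hne x * (theta (substL ρ h0 hne u) / substL ρ h0 hne u)).coeff 0 =
      (x * (theta u / u)).coeff 0 := by
  rw [dlog_substL, ← mul_assoc, ← map_mul, coeff_zero_substL_mul ρ h0 hne h1]

end Fermat.Agent.Lib.LaurentSubst
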