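/-
Lib / LaurentSubst (helper227): a change of uniformiser preserves the order of a Laurent series;
leading coefficients.  Mathlib only.
-/
import Fermat.Agent.Lib.LaurentSubst.ResInv

set_option autoImplicit false

namespace Fermat.Agent.Lib.LaurentSubst

open PowerSeries

variable {k : Type*} [Field k]

local notation "ι" => HahnSeries.ofPowerSeries ℤ k

/-- order and leading coefficient of `t ^ n * E`, `E` a power series with `E(0) ≠ 0`. -/
theorem order_leadingCoeff_single_mul (n : ℤ) (E : k⟦X⟧) (hE : constantCoeff E ≠ 0) :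
    (HahnSeries.single n (1 : k) * ι E).order = n ∧
      (HahnSeries.single n (1 : k) * ι E).leadingCoeff = constantCoeff E := by
  set G : LaurentSeries k := HahnSeries.single n (1 : k) * ι E with hG
  have hc : ∀ m : ℤ, G.coeff m = (ι E).coeff (m - n) := by
    intro m
    rw [hG, HahnSeries.coeff_single_mul, one_mul]
  have hn : G.coeff n = constantCoeff E := by
    rw [hc, sub_self, ← Nat.cast_zero, LaurentSeries.coeff_coe_powerSeries,
      coeff_zero_eq_constantCoeff_apply]
  have hne : G ≠ 0 := by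
    intro h
    rw [h, HahnSeries.coeff_zero] at hn
    exact hE hn.symm
  have h1 : G.order ≤ n := HahnSeries.order_le_of_coeff_ne_zero (by rw [hn]; exact hE)
  have h2 : n ≤ G.order := by
    by_contra hlt
    have h3 : G.coeff G.order = 0 := by
      rw [hc, PowerSeries.coeff_coe, if_pos (by omega)]
    exact hne (HahnSeries.coeff_order_eq_zero.mp h3)
  have h3 : G.order = n := le_antisymm h1 h2
  exact ⟨h3, by rw [HahnSeries.leadingCoeff_eq, h3, hn]⟩

theorem constantCoeff_powerSeriesPart (G : LaurentSeries k) :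
    constantCoeff G.powerSeriesPart = G.leadingCoeff := by
  rw [← coeff_zero_eq_constantCoeff_apply, LaurentSeries.powerSeriesPart_coeff,
    HahnSeries.leadingCoeff_eq]
  simp

theorem constantCoeff_subst_eq {ρ : k⟦X⟧} (h0 : constantCoeff ρ = 0) (E : k⟦X⟧) :
    constantCoeff (E.subst ρ) = constantCoeff E := by
  have hs := HasSubst.of_constantCoeff_zero' h0
  have h1 : E = (E - C (constantCoeff E)) + C (constantCoeff E) := by ring
  have h2 : constantCoeff ((E - C (constantCoeff E)).subst ρ) = 0 :=
    constantCoeff_subst_eq_zero h0 _ (by simp)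
  conv_lhs => rw [h1, subst_add hs, map_add, h2, zero_add, subst_C]
  exact constantCoeff_C _

variable (ρ : k⟦X⟧) (h0 : constantCoeff ρ = 0) (hne : ρ ≠ 0)

include h0 in
/-- integral powers of a uniformiser -/
theorem exists_ofPowerSeries_zpow (h1 : coeff 1 ρ ≠ 0) (n : ℤ) :
    ∃ V : k⟦X⟧, constantCoeff V = (coeff 1 ρ) ^ n ∧
      (ι ρ) ^ n = HahnSeries.single n 1 * ι V := by
  rcases le_or_gt 0 n with hn | hn
  · obtain ⟨m, rfl⟩ := Int.eq_ofNat_of_zero_le hn
    refine ⟨unitPart ρ ^ m, by rw [map_pow, constantCoeff_unitPart, zpow_natCast], ?_⟩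
    have e : ι ρ = ι X * ι (unitPart ρ) := by
      rw [← map_mul, ← eq_X_mul_unitPart h0]
    rw [zpow_natCast, e, mul_pow, map_pow, PowerSeries.coe_X, HahnSeries.single_pow]
    simp
  · obtain ⟨m, rfl⟩ : ∃ m : ℕ, n = -(m : ℤ) := ⟨(-n).toNat, by omega⟩
    refine ⟨(unitPart ρ)⁻¹ ^ m, ?_, ofPowerSeries_zpow_neg ρ h0 h1 m⟩
    rw [map_pow, PowerSeries.constantCoeff_inv, constantCoeff_unitPart, zpow_neg, zpow_natCast,
      inv_pow]

theorem order_leadingCoeff_substL (h1 : coeff 1 ρ ≠ 0) (G : LaurentSeries k) :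
    (substL ρ h0 hne G).order = G.order ∧
      (substL ρ h0 hne G).leadingCoeff = G.leadingCoeff * (coeff 1 ρ) ^ G.order := by
  rcases eq_or_ne G 0 with rfl | hG
  · simp
  · obtain ⟨V, hV, hV'⟩ := exists_ofPowerSeries_zpow ρ h0 h1 G.order
    have e : substL ρ h0 hne G =
        HahnSeries.single G.order 1 * ι (V * G.powerSeriesPart.subst ρ) := by
      conv_lhs => rw [← LaurentSeries.single_order_mul_powerSeriesPart G]
      rw [map_mul, substL_single, map_one, one_mul, substL_ofPowerSeries, hV', map_mul, mul_assoc]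
    have hc : constantCoeff (V * G.powerSeriesPart.subst ρ) =
        G.leadingCoeff * (coeff 1 ρ) ^ G.order := by
      rw [map_mul, hV, constantCoeff_subst_eq h0, constantCoeff_powerSeriesPart, mul_comm]
    have hc0 : constantCoeff (V * G.powerSeriesPart.subst ρ) ≠ 0 := by
      rw [hc]
      exact mul_ne_zero (HahnSeries.leadingCoeff_ne_zero.mpr hG) (zpow_ne_zero _ h1)
    have := order_leadingCoeff_single_mul G.order _ hc0
    rw [← e, hc] at this
    exact this

theorem order_substL (h1 : coeff 1 ρ ≠ 0) (G : LaurentSeries k) :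
    (substL ρ h0 hne G).order = G.order :=
  (order_leadingCoeff_substL ρ h0 hne h1 G).1

theorem leadingCoeff_substL (h1 : coeff 1 ρ ≠ 0) (G : LaurentSeries k) :
    (substL ρ h0 hne G).leadingCoeff = G.leadingCoeff * (coeff 1 ρ) ^ G.order :=
  (order_leadingCoeff_substL ρ h0 hne h1 G).2

end Fermat.Agent.Lib.LaurentSubst
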