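/-
Lib / LaurentSubst (helper227): roots of unit power series (Hensel) and the existence of a change
of uniformiser `ρ` turning a Laurent series of order `-r` (`r` invertible in the algebraically
closed field `k`) into `t ^ (-r)`.  Mathlib only.
-/
import Fermat.Agent.Lib.LaurentSubst.Order

set_option autoImplicit false

namespace Fermat.Agent.Lib.LaurentSubst

open PowerSeries

variable {k : Type*} [Field k]

local notation "ι" => HahnSeries.ofPowerSeries ℤ k

/-- `r`-th roots of power series with constant coefficient one (`r` invertible). -/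
theorem exists_pow_eq_of_constantCoeff_eq_one (r : ℕ) (hrk : (r : k) ≠ 0) (u : k⟦X⟧)
    (hu : constantCoeff u = 1) : ∃ u₁ : k⟦X⟧, constantCoeff u₁ = 1 ∧ u₁ ^ r = u := by
  have hr : r ≠ 0 := by
    rintro rfl
    simp at hrk
  have hmem : ∀ f : k⟦X⟧, f ∈ (Ideal.span {X} : Ideal k⟦X⟧) ↔ constantCoeff f = 0 := by
    intro f
    rw [Ideal.mem_span_singleton, X_dvd_iff]
  obtain ⟨a, ha, ha'⟩ := HenselianRing.is_henselian (R := k⟦X⟧) (I := Ideal.span {X})
    (Polynomial.X ^ r - Polynomial.C u) (Polynomial.monic_X_pow_sub_C u hr) 1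
    (by
      rw [hmem]
      simp [hu])
    (by
      apply IsUnit.map
      have : (Polynomial.derivative (Polynomial.X ^ r - Polynomial.C u : Polynomial k⟦X⟧)).eval 1
          = C (r : k) := by
        rw [Polynomial.derivative_sub, Polynomial.derivative_C, sub_zero,
          Polynomial.derivative_X_pow, Polynomial.eval_mul, Polynomial.eval_pow,
          Polynomial.eval_X, one_pow, mul_one, Polynomial.eval_C, map_natCast]
      rw [this]
      exact (hrk.isUnit).map C)
  refine ⟨a, ?_, ?_⟩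
  · rw [hmem, map_sub, map_one] at ha'
    exact sub_eq_zero.mp ha'
  · have : a ^ r - u = 0 := by simpa [Polynomial.IsRoot] using ha
    exact sub_eq_zero.mp this

/-- A Laurent series of order `r > 0` is the `r`-th power of a power series of order one. -/
theorem exists_pow_eq_of_order [IsAlgClosed k] (s : LaurentSeries k) (r : ℕ) (hr : 0 < r)
    (hrk : (r : k) ≠ 0) (hs : s.order = (r : ℤ)) :
    ∃ σ : k⟦X⟧, constantCoeff σ = 0 ∧ coeff 1 σ ≠ 0 ∧ (ι σ) ^ r = s := by
  have hs0 : s ≠ 0 := by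
    rintro rfl
    rw [HahnSeries.order_zero] at hs
    omega
  set c := s.leadingCoeff with hc
  have hc0 : c ≠ 0 := HahnSeries.leadingCoeff_ne_zero.mpr hs0
  obtain ⟨c₁, hc₁⟩ := IsAlgClosed.exists_pow_nat_eq c hr
  have hc₁0 : c₁ ≠ 0 := by
    rintro rfl
    rw [zero_pow hr.ne'] at hc₁
    exact hc0 hc₁.symm
  obtain ⟨u₁, hu₁, hu₁'⟩ := exists_pow_eq_of_constantCoeff_eq_one r hrk
    (C c⁻¹ * s.powerSeriesPart) (by
      rw [map_mul, constantCoeff_C, constantCoeff_powerSeriesPart, ← hc, inv_mul_cancel₀ hc0])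
  refine ⟨X * (C c₁ * u₁), by simp, ?_, ?_⟩
  · rw [coeff_succ_X_mul, coeff_zero_eq_constantCoeff_apply, map_mul, constantCoeff_C, hu₁,
      mul_one]
    exact hc₁0
  · rw [← map_pow, mul_pow, mul_pow, hu₁', ← map_pow, hc₁, ← mul_assoc (C c), ← map_mul,
      mul_inv_cancel₀ hc0, map_one, one_mul]
    exact LaurentSeries.X_order_mul_powerSeriesPart hs.symm

/-- (L4, positive order) -/
theorem exists_substL_eq_single_pos [IsAlgClosed k] (s : LaurentSeries k) (r : ℕ) (hr : 0 < r)
    (hrk : (r : k) ≠ 0) (hs : s.order = (r : ℤ)) :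
    ∃ (ρ : k⟦X⟧) (h0 : constantCoeff ρ = 0) (hne : ρ ≠ 0), coeff 1 ρ ≠ 0 ∧
      substL ρ h0 hne s = HahnSeries.single (r : ℤ) 1 := by
  obtain ⟨σ, hσ0, hσ1, hσ⟩ := exists_pow_eq_of_order s r hr hrk hs
  set ρ := σ.substInvOfIsUnit hσ1.isUnit with hρ
  have h0 : constantCoeff ρ = 0 := constantCoeff_substInvOfIsUnit σ hσ1.isUnit
  have h1 : coeff 1 ρ ≠ 0 := by
    rw [hρ, coeff_one_substInvOfIsUnit]
    exact Units.ne_zero _
  have hne : ρ ≠ 0 := by
    intro h
    rw [h, map_zero] at h1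
    exact h1 rfl
  refine ⟨ρ, h0, hne, h1, ?_⟩
  rw [← hσ, map_pow, substL_ofPowerSeries, hρ, subst_substInvOfIsUnit_right σ hσ0 hσ1.isUnit,
    PowerSeries.coe_X, HahnSeries.single_pow]
  simp

/-- (L4) A Laurent series `x` of order `-r`, `r > 0` invertible in the algebraically closed field
`k`, becomes `t ^ (-r)` after a change of uniformiser. -/
theorem exists_substL_eq_single [IsAlgClosed k] (x : LaurentSeries k) (r : ℕ) (hr : 0 < r)
    (hrk : (r : k) ≠ 0) (hx : x.order = -(r : ℤ)) :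
    ∃ (ρ : k⟦X⟧) (h0 : constantCoeff ρ = 0) (hne : ρ ≠ 0), coeff 1 ρ ≠ 0 ∧
      substL ρ h0 hne x = HahnSeries.single (-(r : ℤ)) 1 := by
  have hx0 : x ≠ 0 := by
    rintro rfl
    rw [HahnSeries.order_zero] at hx
    omega
  have hinv : (x⁻¹).order = (r : ℤ) := by
    have h1 : (x * x⁻¹).order = x.order + (x⁻¹).order :=
      HahnSeries.order_mul hx0 (inv_ne_zero hx0)
    rw [mul_inv_cancel₀ hx0, HahnSeries.order_one, hx] at h1
    omega
  obtain ⟨ρ, h0, hne, h1, h⟩ := exists_substL_eq_single_pos x⁻¹ r hr hrk hinv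
  refine ⟨ρ, h0, hne, h1, ?_⟩
  rw [map_inv₀] at h
  rw [← inv_inj, h, HahnSeries.inv_single, inv_one, neg_neg]

end Fermat.Agent.Lib.LaurentSubst
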