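/-
Lib / LaurentSubst (helper227): the scaling automorphisms `t ↦ z t` of Laurent series, their
compatibility with `theta`, and the sum over the roots of unity.  Mathlib only.
-/
import Fermat.Agent.Lib.LaurentSubst.Theta

set_option autoImplicit false

namespace Fermat.Agent.Lib.LaurentSubst

open HahnSeries

section Ring

variable {R : Type*} [CommRing R]

theorem theta_C (c : R) : theta (HahnSeries.C c : LaurentSeries R) = 0 := by
  rw [HahnSeries.C_apply, theta_single]
  simp

theorem theta_pow_char (p : ℕ) [CharP R p] (f : LaurentSeries R) : theta (f ^ p) = 0 := by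
  rw [Derivation.leibniz_pow]
  have : ((p : ℕ) : LaurentSeries R) = 0 := by
    have h : ((p : ℕ) : LaurentSeries R) = HahnSeries.C ((p : ℕ) : R) := by
      rw [map_natCast]
    rw [h, CharP.cast_eq_zero, map_zero]
  rw [← Nat.cast_smul_eq_nsmul (LaurentSeries R), this, zero_smul]

/-- underlying function of `scale` -/
noncomputable def scaleFun (z : Rˣ) (f : LaurentSeries R) : LaurentSeries R :=
  HahnSeries.ofSuppBddBelow (fun n : ℤ => ((z ^ n : Rˣ) : R) * f.coeff n) <| by
    refine ⟨f.order, fun x h => ?_⟩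
    by_contra hlt
    exact h (by
      show ((z ^ x : Rˣ) : R) * f.coeff x = 0
      rw [coeff_eq_zero_of_lt_order (not_le.mp hlt), mul_zero])

@[simp]
theorem coeff_scaleFun (z : Rˣ) (f : LaurentSeries R) (n : ℤ) :
    (scaleFun z f).coeff n = ((z ^ n : Rˣ) : R) * f.coeff n := rfl

theorem support_scaleFun_subset (z : Rˣ) (f : LaurentSeries R) :
    (scaleFun z f).support ⊆ f.support := by
  intro n hn
  rw [HahnSeries.mem_support] at hn ⊢
  intro h
  exact hn (by rw [coeff_scaleFun, h, mul_zero])

theorem scaleFun_mul (z : Rˣ) (f g : LaurentSeries R) :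
    scaleFun z (f * g) = scaleFun z f * scaleFun z g := by
  ext n
  rw [coeff_scaleFun, HahnSeries.coeff_mul,
    HahnSeries.coeff_mul_left' f.isPWO_support (support_scaleFun_subset z f), Finset.mul_sum]
  have h2 : ∀ (s : Set ℤ) (hs : s.IsPWO),
      ∑ ij ∈ Finset.antidiagonal hs (scaleFun z g).isPWO_support n,
        (scaleFun z f).coeff ij.1 * (scaleFun z g).coeff ij.2 =
      ∑ ij ∈ Finset.antidiagonal hs g.isPWO_support n,
        (scaleFun z f).coeff ij.1 * (scaleFun z g).coeff ij.2 := by
    intro s hs
    refine Finset.sum_subset ?_ ?_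
    · intro ij hij
      rw [Finset.mem_antidiagonal] at hij ⊢
      exact ⟨hij.1, support_scaleFun_subset z g hij.2.1, hij.2.2⟩
    · intro ij hij hij'
      rw [Finset.mem_antidiagonal] at hij hij'
      have : (scaleFun z g).coeff ij.2 = 0 := by
        by_contra hne
        exact hij' ⟨hij.1, hne, hij.2.2⟩
      rw [this, mul_zero]
  rw [h2]
  refine Finset.sum_congr rfl fun ij hij => ?_
  rw [Finset.mem_antidiagonal] at hij
  rw [coeff_scaleFun, coeff_scaleFun, ← hij.2.2, zpow_add, Units.val_mul]
  ring

/-- The scaling `t ↦ z t` on Laurent series. -/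
noncomputable def scale (z : Rˣ) : LaurentSeries R →+* LaurentSeries R where
  toFun := scaleFun z
  map_one' := by
    ext n
    rw [coeff_scaleFun, HahnSeries.coeff_one]
    split_ifs with h
    · simp [h]
    · simp
  map_mul' := scaleFun_mul z
  map_zero' := by
    ext n
    simp
  map_add' := fun f g => by
    ext n
    simp [mul_add]

@[simp]
theorem coeff_scale (z : Rˣ) (f : LaurentSeries R) (n : ℤ) :
    (scale z f).coeff n = ((z ^ n : Rˣ) : R) * f.coeff n := rfl

theorem scale_single (z : Rˣ) (n : ℤ) (c : R) :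
    scale z (HahnSeries.single n c) = HahnSeries.single n (((z ^ n : Rˣ) : R) * c) := by
  ext m
  rw [coeff_scale]
  by_cases h : m = n
  · subst h; simp
  · rw [HahnSeries.coeff_single_of_ne h, HahnSeries.coeff_single_of_ne h, mul_zero]

theorem scale_C (z : Rˣ) (c : R) : scale z (HahnSeries.C c) = HahnSeries.C c := by
  rw [HahnSeries.C_apply, scale_single]
  simp

theorem scale_one (f : LaurentSeries R) : scale 1 f = f := by
  ext n
  simp

theorem scale_mul (z w : Rˣ) (f : LaurentSeries R) :
    scale (z * w) f = scale z (scale w f) := by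
  ext n
  rw [coeff_scale, coeff_scale, coeff_scale, mul_zpow, Units.val_mul, mul_assoc]

theorem theta_scale (z : Rˣ) (f : LaurentSeries R) : theta (scale z f) = scale z (theta f) := by
  ext n
  rw [coeff_theta, coeff_scale, coeff_scale, coeff_theta]
  ring

theorem scale_injective (z : Rˣ) : Function.Injective (scale z : LaurentSeries R → _) := by
  intro f g h
  have := congrArg (scale z⁻¹) h
  rwa [← scale_mul, ← scale_mul, inv_mul_cancel, scale_one, scale_one] at this

end Ring

variable {k : Type*} [Field k]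

/-- the sum over the `r`-th roots of unity picks the coefficients with `r ∣ n` -/
theorem coeff_sum_scale {r : ℕ} (_hr : 0 < r) {ζ : kˣ} (hζ : IsPrimitiveRoot ζ r)
    (f : LaurentSeries k) (n : ℤ) :
    (∑ i ∈ Finset.range r, scale (ζ ^ i) f).coeff n =
      if (r : ℤ) ∣ n then (r : k) * f.coeff n else 0 := by
  have h1 : (∑ i ∈ Finset.range r, scale (ζ ^ i) f).coeff n =
      (∑ i ∈ Finset.range r, (((ζ ^ n : kˣ) : k)) ^ i) * f.coeff n := by
    rw [HahnSeries.coeff_sum, Finset.sum_mul]
    refine Finset.sum_congr rfl fun i _ => ?_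
    rw [coeff_scale]
    congr 1
    rw [← Units.val_pow_eq_pow_val, ← zpow_natCast, ← zpow_natCast, ← zpow_mul, ← zpow_mul,
      mul_comm]
  rw [h1]
  split_ifs with hd
  · have : ζ ^ n = 1 := (hζ.zpow_eq_one_iff_dvd n).mpr hd
    rw [this]
    simp
  · have hne : ((ζ ^ n : kˣ) : k) ≠ 1 := by
      intro h
      apply hd
      apply (hζ.zpow_eq_one_iff_dvd n).mp
      exact Units.ext (by rw [h, Units.val_one])
    have hpow : (((ζ ^ n : kˣ) : k)) ^ r = 1 := by
      rw [← Units.val_pow_eq_pow_val, ← zpow_natCast, ← zpow_mul, mul_comm, zpow_mul,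
        zpow_natCast, hζ.pow_eq_one, one_zpow, Units.val_one]
    have hg := mul_neg_geom_sum (((ζ ^ n : kˣ) : k)) r
    rw [hpow, sub_self] at hg
    rcases mul_eq_zero.mp hg with h | h
    · exact absurd (sub_eq_zero.mp h).symm hne
    · rw [h, zero_mul]

/-- if `f.coeff n ≠ 0` with `z ^ n ≠ 1` then `scale z` moves `f` -/
theorem scale_ne_self {z : kˣ} {f : LaurentSeries k} {n : ℤ} (hn : f.coeff n ≠ 0)
    (hz : z ^ n ≠ 1) : scale z f ≠ f := by
  intro h
  have h1 := congrArg (fun g => HahnSeries.coeff g n) h
  simp only [coeff_scale] at h1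
  have h2 : ((z ^ n : kˣ) : k) = 1 := by
    have : (((z ^ n : kˣ) : k) - 1) * f.coeff n = 0 := by rw [sub_mul, h1, one_mul, sub_self]
    rcases mul_eq_zero.mp this with h | h
    · exact sub_eq_zero.mp h
    · exact absurd h hn
  exact hz (Units.ext (by rw [h2, Units.val_one]))

end Fermat.Agent.Lib.LaurentSubst
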